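/-
S20 package JA (backup implementation, helper29): algebra on top of the jets.
* `jetMatrix_det_ne_zero` : the jet matrix of a frame is invertible (JA1').
* `exists_limVec_eq`      : every `T`-invariant vector is the limit vector of a form of weight `K`,
                            for even `K` with `a x + 4 ≤ K` (JA2).
* `finrank_modularForm_eq_cusp_add'` : `dim M_K = dim S_K + #(T-orbits)` for such `K` (JA3).
-/
import Fermat.Agent.S20.Jet
import Fermat.Agent.S20.Basic
import Fermat.Agent.S20.LinAlg
import Fermat.Agent.S20.LevelOne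
import Fermat.Agent.S20.FrameLemmas
import Fermat.Prelude.Thm_ModularForm_sturm_bound_Gamma0
import Fermat.Prelude.Thm_CongruenceSubgroup_one_mem_strictPeriods_Gamma0

set_option autoImplicit false

open UpperHalfPlane ModularForm CongruenceSubgroup Matrix.SpecialLinearGroup Filter
open scoped MatrixGroups ModularForm Manifold Topology

noncomputable section

namespace Fermat.Agent.S20.H29

open Fermat.Agent.S20

variable {N : ℕ} [NeZero N]

/-! ### Sums of forms: coset translates and jets -/

theorem cosetFun_zero' {k : ℤ} (c : X N) : cosetFun (0 : ModularForm (Γ0 N) k) c = 0 := by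
  have h := cosetFun_smul (0 : ℂ) (0 : ModularForm (Γ0 N) k) c
  rwa [zero_smul, zero_smul] at h

theorem cosetFun_sum {ι : Type*} (s : Finset ι) {k : ℤ} (lam : ι → ℂ)
    (h : ι → ModularForm (Γ0 N) k) (c : X N) :
    cosetFun (∑ i ∈ s, lam i • h i) c = ∑ i ∈ s, lam i • cosetFun (h i) c := by
  classical
  induction s using Finset.induction_on with
  | empty => simp [cosetFun_zero']
  | insert i s hi ih =>
    rw [Finset.sum_insert hi, Finset.sum_insert hi, cosetFun_add, cosetFun_smul, ih]

theorem jetVec_zero' {k : ℤ} : jetVec (0 : ModularForm (Γ0 N) k) = 0 := by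
  have h := jetVec_smul (0 : ℂ) (0 : ModularForm (Γ0 N) k)
  rwa [zero_smul, zero_smul] at h

theorem jetVec_sum {ι : Type*} (s : Finset ι) {k : ℤ} (lam : ι → ℂ)
    (h : ι → ModularForm (Γ0 N) k) :
    jetVec (∑ i ∈ s, lam i • h i) = ∑ i ∈ s, lam i • jetVec (h i) := by
  classical
  induction s using Finset.induction_on with
  | empty => simp [jetVec_zero']
  | insert i s hi ih =>
    rw [Finset.sum_insert hi, Finset.sum_insert hi, jetVec_add, jetVec_smul, ih]

/-! ### Level-one multiples of the members of a family, cast to a common weight -/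

variable {a : X N → ℤ}

/-- The product of a level-one form of weight `K - a x` with `F x`, as a form of weight `K`. -/
def lift (F : ∀ x, ModularForm (Γ0 N) (a x)) (K : ℤ) (x : X N) (G : ModularForm 𝒮ℒ (K - a x)) :
    ModularForm (Γ0 N) K :=
  ModularForm.mcast (by ring : (K - a x) + a x = K) ((resLO N G).mul (F x))

theorem cosetFun_lift (F : ∀ x, ModularForm (Γ0 N) (a x)) (K : ℤ) (x : X N)
    (G : ModularForm 𝒮ℒ (K - a x)) (c : X N) (τ : ℍ) :
    cosetFun (lift F K x G) c τ = G τ * cosetFun (F x) c τ := by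
  have h := cosetFun_congr (N := N) (by ring : K = (K - a x) + a x) (lift F K x G)
    ((resLO N G).mul (F x)) rfl c
  rw [h, cosetFun_resLO_mul]

theorem jetVec_lift (F : ∀ x, ModularForm (Γ0 N) (a x)) (K : ℤ) (x : X N)
    (G : ModularForm 𝒮ℒ (K - a x)) :
    jetVec (lift F K x G) = valueAtInfty G • jetVec (F x) := by
  have h1 : jetVec (lift F K x G) = jetVec ((resLO N G).mul (F x)) := by
    funext c
    simp only [jetVec]
    rw [cosetFun_congr (N := N) (by ring : K = (K - a x) + a x) (lift F K x G)
      ((resLO N G).mul (F x)) rfl c]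
  rw [h1]
  exact jetVec_levelOne_mul G (F x) _ (fun c τ => cosetFun_resLO_mul G (F x) c τ)

variable {F : ∀ x, ModularForm (Γ0 N) (a x)}

/-- The weights of a frame are even. -/
theorem even_weight (hF : IsFrame a F) (x : X N) : Even (a x) := by
  by_contra hodd
  rw [Int.not_even_iff_odd] at hodd
  have h0 : F x = 0 := eq_zero_of_odd_weight hodd (F x)
  apply hF.1 UpperHalfPlane.I
  apply Matrix.det_eq_zero_of_column_eq_zero x
  intro c
  simp only [frameMatrix, Matrix.of_apply]
  rw [h0, cosetFun_zero']
  rfl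

/-- Level-one multipliers of weight `K - a x` tending to `1` at `i∞`. -/
theorem exists_multipliers (hF : IsFrame a F) {K : ℤ} (hK : Even K) (hKa : ∀ x, a x + 4 ≤ K) :
    ∃ G : ∀ x, ModularForm 𝒮ℒ (K - a x), ∀ x, Tendsto (G x) atImInfty (𝓝 1) := by
  have h : ∀ x, ∃ s : ModularForm 𝒮ℒ (K - a x), Tendsto s atImInfty (𝓝 1) := fun x =>
    H61.exists_levelOne_tendsto_one (hK.sub (even_weight hF x)) (Or.inr (by linarith [hKa x]))
  choose G hG using h
  exact ⟨G, hG⟩

theorem valueAtInfty_eq_one {m : ℤ} {G : ModularForm 𝒮ℒ m} (h : Tendsto G atImInfty (𝓝 1)) :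
    valueAtInfty G = 1 :=
  h.limUnder_eq

/-- The combination `∑ lam x • G x F x` of weight `K`. -/
def comb (F : ∀ x, ModularForm (Γ0 N) (a x)) (K : ℤ) (G : ∀ x, ModularForm 𝒮ℒ (K - a x))
    (lam : X N → ℂ) : ModularForm (Γ0 N) K :=
  ∑ x, lam x • lift F K x (G x)

theorem cosetFun_comb (K : ℤ) (G : ∀ x, ModularForm 𝒮ℒ (K - a x)) (lam : X N → ℂ) (c : X N)
    (τ : ℍ) : cosetFun (comb F K G lam) c τ = ∑ x, lam x * G x τ * cosetFun (F x) c τ := by
  unfold comb
  rw [cosetFun_sum, Finset.sum_apply]
  refine Finset.sum_congr rfl fun x _ => ?_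
  rw [Pi.smul_apply, cosetFun_lift, smul_eq_mul, mul_assoc]

theorem jetVec_comb (K : ℤ) (G : ∀ x, ModularForm 𝒮ℒ (K - a x))
    (hG : ∀ x, Tendsto (G x) atImInfty (𝓝 1)) (lam : X N → ℂ) :
    jetVec (comb F K G lam) = ∑ x, lam x • jetVec (F x) := by
  unfold comb
  rw [jetVec_sum]
  refine Finset.sum_congr rfl fun x _ => ?_
  rw [jetVec_lift, valueAtInfty_eq_one (hG x), one_smul]

/-- **JA1'.** The jet matrix of a frame is invertible. -/
theorem jetMatrix_det_ne_zero (hF : IsFrame a F) :
    (Matrix.of fun (c : X N) (x : X N) => jetVec (F x) c).det ≠ 0 := by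
  intro hdet
  obtain ⟨lam, hlam0, hlam⟩ := Matrix.exists_mulVec_eq_zero_iff.mpr hdet
  -- a large even weight
  set M : ℤ := ∑ x, |a x| with hM
  have hM0 : 0 ≤ M := Finset.sum_nonneg fun x _ => abs_nonneg _
  have hMa : ∀ x, a x ≤ M := fun x =>
    (le_abs_self (a x)).trans (Finset.single_le_sum (f := fun x => |a x|)
      (fun y _ => abs_nonneg (a y)) (Finset.mem_univ x))
  set K : ℤ := 2 * M + 4 with hKdef
  have hK : Even K := ⟨M + 2, by rw [hKdef]; ring⟩
  have hKa : ∀ x, a x + 4 ≤ K := fun x => by have := hMa x; rw [hKdef]; linarith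
  obtain ⟨G, hG⟩ := exists_multipliers hF hK hKa
  set f := comb F K G lam with hf
  have hjet : jetVec f = 0 := by
    rw [hf, jetVec_comb K G hG]
    funext c
    have := congrFun hlam c
    simp only [Matrix.mulVec, dotProduct, Matrix.of_apply, Pi.zero_apply] at this
    simp only [Finset.sum_apply, Pi.smul_apply, smul_eq_mul, Pi.zero_apply]
    rw [← this]
    exact Finset.sum_congr rfl fun x _ => mul_comm _ _
  obtain ⟨g, hg⟩ := exists_div_discriminant f hjet
  obtain ⟨r, hr⟩ := hF.gen_coset g
  have key : ∀ (τ : ℍ) (x : X N), lam x * G x τ = discriminant τ * r x τ := by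
    intro τ
    have hv := hF.eq_zero_of_sum_eq_zero τ
      (fun x => lam x * G x τ - discriminant τ * r x τ) (fun c => by
        have h1 := cosetFun_comb (F := F) K G lam c τ
        have h2 := hg c τ
        rw [hr c τ, Finset.mul_sum] at h2
        rw [← hf, h2] at h1
        simp only [sub_mul, Finset.sum_sub_distrib]
        rw [← h1, sub_eq_zero]
        exact Finset.sum_congr rfl fun x _ => by ring)
    intro x
    have := congrFun hv x
    simpa [sub_eq_zero] using this
  apply hlam0
  funext x
  have h1 : Tendsto (fun τ : ℍ => lam x * G x τ) atImInfty (𝓝 (lam x * 1)) :=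
    (hG x).const_mul (lam x)
  have h2 : Tendsto (fun τ : ℍ => discriminant τ * r x τ) atImInfty
      (𝓝 (0 * valueAtInfty (r x))) :=
    (discriminant_isZeroAtImInfty : Tendsto discriminant atImInfty (𝓝 0)).mul (levelOne_tendsto (r x))
  have h3 : (fun τ : ℍ => lam x * G x τ) = fun τ : ℍ => discriminant τ * r x τ :=
    funext fun τ => key τ x
  rw [h3] at h1
  have := tendsto_nhds_unique h1 h2
  simpa using this

/-- **JA2.** Every `T`-invariant vector is the limit vector of a modular form of weight `K`. -/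
theorem exists_limVec_eq (hF : IsFrame a F) {K : ℤ} (hK : Even K) (hKa : ∀ x, a x + 4 ≤ K)
    {v : X N → ℂ} (hv : v ∈ invOf N ModularGroup.T) :
    ∃ f : ModularForm (Γ0 N) K, limVec f = v := by
  obtain ⟨G, hG⟩ := exists_multipliers hF hK hKa
  set Mj : Matrix (X N) (X N) ℂ := Matrix.of fun (c : X N) (x : X N) => jetVec (F x) c with hMj
  have hdet : IsUnit Mj.det := isUnit_iff_ne_zero.mpr (jetMatrix_det_ne_zero hF)
  set lam : X N → ℂ := Mj⁻¹.mulVec v with hlam
  have hMl : Mj.mulVec lam = v := by
    rw [hlam, Matrix.mulVec_mulVec, Matrix.mul_nonsing_inv _ hdet, Matrix.one_mulVec]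
  refine ⟨comb F K G lam, ?_⟩
  have hjet : jetVec (comb F K G lam) = v := by
    rw [jetVec_comb K G hG, ← hMl]
    funext c
    simp only [Matrix.mulVec, dotProduct, hMj, Matrix.of_apply, Finset.sum_apply, Pi.smul_apply,
      smul_eq_mul]
    exact Finset.sum_congr rfl fun x _ => mul_comm _ _
  have hvT : ∀ (m : ℕ) (c : X N), v (ModularGroup.T ^ m • c) = v c := by
    intro m
    induction m with
    | zero => intro c; simp
    | succ m ih =>
      intro c
      rw [pow_succ', mul_smul]
      exact (hv (ModularGroup.T ^ m • c)).trans (ih c)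
  funext c
  have h := sum_jetVec_T_pow (comb F K G lam) c
  rw [hjet] at h
  simp only [hvT, Finset.sum_const, Finset.card_range, nsmul_eq_mul] at h
  have hN : (N : ℂ) ≠ 0 := by exact_mod_cast NeZero.ne N
  exact (mul_left_cancel₀ hN h).symm

/-! ### Finite dimensionality and the Eisenstein count -/

/-- Finite dimensionality of the spaces of modular forms on `Γ₀(N)` (from the Sturm bound). -/
theorem finiteDimensional_modularForm (N : ℕ) [NeZero N] (k : ℤ) :
    FiniteDimensional ℂ (ModularForm (Γ0 N) k) := by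
  have hper : (1 : ℝ) ∈ (Γ0 N).strictPeriods := CongruenceSubgroup.one_mem_strictPeriods_Gamma0 N
  let B : ℕ := (k * (Gamma0 N).index).toNat / 12
  let T : ModularForm (Γ0 N) k →ₗ[ℂ] (Fin (B + 1) → ℂ) :=
    { toFun := fun f i => (qExpansion 1 f).coeff i
      map_add' := fun f g => by
        funext i
        simp only [Pi.add_apply]
        rw [show (⇑(f + g) : ℍ → ℂ) = ⇑f + ⇑g from rfl,
          ModularForm.qExpansion_add one_pos hper f g, map_add]
      map_smul' := fun c f => by
        funext i
        simp only [Pi.smul_apply, RingHom.id_apply]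
        rw [show (⇑(c • f) : ℍ → ℂ) = c • ⇑f from rfl,
          ModularForm.qExpansion_smul one_pos hper c f]
        simp }
  have hT : Function.Injective T := by
    refine (injective_iff_map_eq_zero _).mpr fun f hf => ?_
    refine ModularForm.sturm_bound_Gamma0 N f fun n hn => ?_
    have := congrFun hf ⟨n, Nat.lt_succ_of_le hn⟩
    simpa [T] using this
  exact FiniteDimensional.of_injective T hT

/-- The limit vector as a linear map to the `T`-invariant vectors. -/
def limLin (N : ℕ) [NeZero N] (K : ℤ) : ModularForm (Γ0 N) K →ₗ[ℂ] invOf N ModularGroup.T where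
  toFun f := ⟨limVec f, limVec_mem_invOf f⟩
  map_add' f g := Subtype.ext (limVec_add f g)
  map_smul' c f := Subtype.ext (limVec_smul c f)

theorem ker_limLin (N : ℕ) [NeZero N] (K : ℤ) :
    LinearMap.ker (limLin N K) = LinearMap.range (CuspForm.toModularFormₗ (Γ := Γ0 N) (k := K)) := by
  ext f
  rw [LinearMap.mem_ker, LinearMap.mem_range]
  constructor
  · intro h
    have h0 : limVec f = 0 := congrArg Subtype.val h
    obtain ⟨g, hg⟩ := exists_cuspForm_of_limVec_eq_zero f h0
    exact ⟨g, DFunLike.ext _ _ fun z => congrFun hg z⟩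
  · rintro ⟨g, rfl⟩
    obtain ⟨f', hf', hlim⟩ := exists_modularForm_of_cuspForm g
    have : CuspForm.toModularFormₗ g = f' := DFunLike.ext _ _ fun z => (congrFun hf' z).symm
    rw [this]
    exact Subtype.ext hlim

/-- **JA3.** For even `K` with `a x + 4 ≤ K` for all `x`:
`dim M_K(Γ₀(N)) = dim S_K(Γ₀(N)) + #(T-orbits on X N)`. -/
theorem finrank_modularForm_eq_cusp_add' (hF : IsFrame a F) {K : ℤ} (hK : Even K)
    (hKa : ∀ x, a x + 4 ≤ K) :
    Module.finrank ℂ (ModularForm (Γ0 N) K) =
      Module.finrank ℂ (CuspForm (Γ0 N) K) + Nat.card (Orb N ModularGroup.T) := by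
  have := finiteDimensional_modularForm N K
  have hsurj : LinearMap.range (limLin N K) = ⊤ := by
    rw [LinearMap.range_eq_top]
    rintro ⟨v, hv⟩
    obtain ⟨f, hf⟩ := exists_limVec_eq hF hK hKa hv
    exact ⟨f, Subtype.ext hf⟩
  have h1 := LinearMap.finrank_range_add_finrank_ker (limLin N K)
  rw [hsurj, finrank_top, finrank_invOf, ker_limLin,
    LinearMap.finrank_range_of_inj CuspForm.toModularFormₗ_injective] at h1
  omega

/-- JA3 in the shape of the skeleton, given the weight bound `a x ≤ 10` (package G3a). -/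
theorem finrank_modularForm_eq_cusp_add (hF : IsFrame a F) (hwt : ∀ x, a x ≤ 10) {k : ℤ}
    (hk : Even k) (hk14 : 14 ≤ k) :
    Module.finrank ℂ (ModularForm (Γ0 N) k) =
      Module.finrank ℂ (CuspForm (Γ0 N) k) + Nat.card (Orb N ModularGroup.T) :=
  finrank_modularForm_eq_cusp_add' hF hk fun x => by linarith [hwt x]

end Fermat.Agent.S20.H29
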